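import Mathlib
import Fermat.Prelude.Def_AlgebraicCurve_BaseChangeGalois
import Fermat.Agent.S18.T.Spec
import Fermat.Agent.SS.K.Defs

/-!
# Program S (S34), ROUTE K : definitions of the abstract number-field theorem

See `SS/NF/Spec.lean` for the statements.
-/

set_option autoImplicit false
set_option linter.unusedSectionVars false
set_option linter.unusedVariables false

noncomputable section

namespace Fermat.Agent.SS

open Polynomial IntermediateField AlgebraicCurve Fermat.Agent.S18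

universe u

variable {A : Type*} [CommRing A] [IsDomain A] [IsDiscreteValuationRing A] [CharZero A]
variable {L : Type*} [Field L] [Algebra A L] [IsFractionRing A L]
variable {F : Type u} [Field F] [Algebra A F] [Algebra L F] [IsScalarTower A L F]
variable {ϖ : A}

/-- the double difference `f^{(σ-1)(τ-1)} = σ(τ f) · f / (σ f · τ f)` -/
def ssnfDD (σ τ : SemilinearAut L F) (f : F) : F := (σ • (τ • f)) * f / ((σ • f) * (τ • f))

/-- `R` is `L`-rational : every element of the valuation ring has a value in `L`. -/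
def SsRational (R : Place L F) : Prop :=
  ∀ x : F, x ∈ R.toValuationSubring →
    ∃ c : L, x - algebraMap L F c ∈ R.toValuationSubring.nonunits

/-- `R` is centred at (a prime inside) the maximal ideal `𝔫` of `P = s18tInt A t`. -/
def SsCentredAt (t : F) (𝔫 : Ideal ↥(s18tInt A t)) (R : Place L F) : Prop :=
  s18tInt A t ≤ R.toValuationSubring.toSubring ∧
    sskCentre t R.toValuationSubring ⊆ (𝔫 : Set ↥(s18tInt A t))

/-- `γ ≡ id mod ϖ P` on the chart ring `P = s18tInt A t`. -/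
def SsInertial (ϖ : A) (t : F) (γ : SemilinearAut L F) : Prop :=
  ∀ x ∈ s18tInt A t, ∃ p ∈ s18tInt A t, γ • x - x = algebraMap A F ϖ * p

/-- THE LOCAL STRUCTURE at `𝔫`, in the form used by the global argument. -/
def SsLocAt (t : F) (σ τ : SemilinearAut L F) (𝔫 : Ideal ↥(s18tInt A t)) : Prop :=
  ∀ R : Place L F, SsRational R → SsCentredAt t 𝔫 R →
    (∃ f : F, f ≠ 0 ∧ R.ord f = 1 ∧
      ∀ R' : Place L F, SsCentredAt t 𝔫 R' → R' ≠ R → R'.ord f = 0) ∨
    (σ • R = R ∧ τ • R = R)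

/-- the uniformiser as an element of `P` -/
def sskPi (ϖ : A) (t : F) : ↥(s18tInt A t) := ⟨algebraMap A F ϖ, s18tc_algebraMap_mem_int t ϖ⟩

/-- `x ∈ P_𝔫` : a fraction with denominator outside `𝔫`. -/
def SsnfInLoc (t : F) (𝔫 : Ideal ↥(s18tInt A t)) (x : F) : Prop :=
  ∃ s : ↥(s18tInt A t), s ∉ 𝔫 ∧ (s : F) * x ∈ s18tInt A t

/-- `x ∈ 𝔫 P_𝔫` : a fraction with numerator in `𝔫` and denominator outside `𝔫`. -/
def SsnfInMax (t : F) (𝔫 : Ideal ↥(s18tInt A t)) (x : F) : Prop :=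
  ∃ s : ↥(s18tInt A t), s ∉ 𝔫 ∧ ∃ p : ↥(s18tInt A t), p ∈ 𝔫 ∧ (s : F) * x = (p : F)

/-- smooth germ : `𝔫 P_𝔫 = (ϖ, z)`, `z ∈ 𝔫 P_𝔫`.  NO invariance of `z` under `G` is required
(the argument `G` is kept for uniformity with `SsGermCross` only) : `z - z(R)` cuts out `R` among
the places centred at `𝔫` whatever `z` is. -/
def SsGermSmooth (ϖ : A) (t : F) (G : Subgroup (SemilinearAut L F))
    (𝔫 : Ideal ↥(s18tInt A t)) : Prop :=
  ∃ z : F, SsnfInMax t 𝔫 z ∧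
    ∀ x ∈ 𝔫, ∃ s : ↥(s18tInt A t), s ∉ 𝔫 ∧ ∃ a b : ↥(s18tInt A t),
      (s : F) * (x : F) = (a : F) * algebraMap A F ϖ + (b : F) * z

/-- crossing germ : for every precision `m` there are `G`-invariant `u, w ∈ 𝔫 P_𝔫` with
`𝔫 P_𝔫 = (ϖ, u, w)` and `u w = κ + ϖ^m ρ`, `κ ∈ A`, `ρ ∈ P_𝔫`. -/
def SsGermCross (ϖ : A) (t : F) (G : Subgroup (SemilinearAut L F))
    (𝔫 : Ideal ↥(s18tInt A t)) : Prop :=
  ∀ m : ℕ, ∃ u w : F, SsnfInMax t 𝔫 u ∧ SsnfInMax t 𝔫 w ∧
    (∀ γ ∈ G, γ • u = u) ∧ (∀ γ ∈ G, γ • w = w) ∧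
    (∀ x ∈ 𝔫, ∃ s : ↥(s18tInt A t), s ∉ 𝔫 ∧ ∃ a b c : ↥(s18tInt A t),
      (s : F) * (x : F) = (a : F) * algebraMap A F ϖ + (b : F) * u + (c : F) * w) ∧
    ∃ κ : A, ∃ ρ : F, SsnfInLoc t 𝔫 ρ ∧ u * w = algebraMap A F κ + algebraMap A F ϖ ^ m * ρ

end Fermat.Agent.SS
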