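import Mathlib
import Fermat.Prelude.Def_AlgebraicCurve_BaseChangeGalois
import Fermat.Agent.S18.T.Spec
import Fermat.Agent.S18.RH.W
import Fermat.Agent.S24.PlaceOrd
import Fermat.Agent.SS.K.Spec
import Fermat.Agent.SS.NF.Defs

/-!
# Program S, route K : (NF-core)

(K2) + local trivialisations of the divisor of `g^{(σ-1)(τ-1)}` at all maximal ideals `𝔫 ∋ ϖ` of
both charts ⟹ `g^{(σ-1)(τ-1)}` is an `n`-th power.  Assembly of (KRULL) `ssk_krull` and (KUM)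
`ssk_kummer`.
-/

set_option autoImplicit false
set_option linter.unusedSectionVars false
set_option linter.unusedVariables false

noncomputable section

namespace Fermat.Agent.SS

open Polynomial IntermediateField AlgebraicCurve Fermat.Agent.S18 Fermat.Agent.S24

universe u

variable {A : Type*} [CommRing A] [IsDomain A] [IsDiscreteValuationRing A] [CharZero A]
variable {L : Type*} [Field L] [Algebra A L] [IsFractionRing A L]
variable {F : Type u} [Field F] [Algebra A F] [Algebra L F] [IsScalarTower A L F]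
variable {ϖ : A}

/-! ### the double difference is multiplicative -/

theorem ssnf_smul_ne_zero (γ : SemilinearAut L F) {f : F} (hf : f ≠ 0) : γ • f ≠ 0 :=
  (smul_ne_zero_iff_ne γ).mpr hf

theorem ssnfDD_ne_zero (σ τ : SemilinearAut L F) {f : F} (hf : f ≠ 0) : ssnfDD σ τ f ≠ 0 := by
  unfold ssnfDD
  exact div_ne_zero (mul_ne_zero (ssnf_smul_ne_zero σ (ssnf_smul_ne_zero τ hf)) hf)
    (mul_ne_zero (ssnf_smul_ne_zero σ hf) (ssnf_smul_ne_zero τ hf))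

theorem ssnfDD_mul (σ τ : SemilinearAut L F) (a b : F) :
    ssnfDD σ τ (a * b) = ssnfDD σ τ a * ssnfDD σ τ b := by
  unfold ssnfDD
  simp only [smul_mul']
  rw [div_mul_div_comm]
  congr 1 <;> ring

theorem ssnfDD_inv (σ τ : SemilinearAut L F) (a : F) : ssnfDD σ τ a⁻¹ = (ssnfDD σ τ a)⁻¹ := by
  unfold ssnfDD
  simp only [smul_inv'']
  rw [inv_div, ← mul_inv, ← mul_inv, inv_div_inv]

theorem ssnfDD_pow (σ τ : SemilinearAut L F) (a : F) (n : ℕ) :
    ssnfDD σ τ (a ^ n) = ssnfDD σ τ a ^ n := by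
  induction n with
  | zero =>
    simp only [pow_zero]
    unfold ssnfDD
    simp
  | succ k ih => rw [pow_succ, ssnfDD_mul, ih, pow_succ]

theorem ssnfDD_div_pow (σ τ : SemilinearAut L F) (g f : F) (n : ℕ) :
    ssnfDD σ τ (g / f ^ n) = ssnfDD σ τ g / ssnfDD σ τ f ^ n := by
  rw [div_eq_mul_inv, ssnfDD_mul, ssnfDD_inv, ssnfDD_pow, div_eq_mul_inv]

/-! ### the local datum of (KUM) from the local trivialisation of the divisor -/

theorem ssnf_kumAt (hϖ : Irreducible ϖ) (t : F) (ht : Transcendental L t)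
    [FiniteDimensional L⟮t⟯ F] (n : ℕ) (σ τ : SemilinearAut L F)
    (hK2 : ∀ f : F, f ≠ 0 → S18DvdGauss hϖ t (ssnfDD σ τ f - 1))
    (g : F) (hg : g ≠ 0)
    (𝔫 : Ideal ↥(s18tInt A t)) (h𝔫 : 𝔫.IsMaximal)
    (hloc : ∃ f : F, f ≠ 0 ∧ ∀ R : Place L F, SsCentredAt t 𝔫 R →
        R.ord (ssnfDD σ τ g) = n * R.ord (ssnfDD σ τ f)) :
    SskKumAt hϖ t n (ssnfDD σ τ g) 𝔫 := by
  obtain ⟨f, hf0, hord⟩ := hloc
  set r : F := ssnfDD σ τ f with hr
  set h : F := ssnfDD σ τ g with hh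
  have hr0 : r ≠ 0 := ssnfDD_ne_zero σ τ hf0
  have hh0 : h ≠ 0 := ssnfDD_ne_zero σ τ hg
  have hr1 : S18DvdGauss hϖ t (r - 1) := hK2 f hf0
  have hr2 : S18DvdGauss hϖ t (r⁻¹ - 1) := by
    have := hK2 f⁻¹ (inv_ne_zero hf0)
    rwa [ssnfDD_inv] at this
  -- `x₁ = h / r^n ≡ 1`
  have hgf0 : g / f ^ n ≠ 0 := div_ne_zero hg (pow_ne_zero _ hf0)
  have hx1 : S18DvdGauss hϖ t (h / r ^ n - 1) := by
    have := hK2 (g / f ^ n) hgf0
    rwa [ssnfDD_div_pow] at this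
  obtain ⟨m, hm, hxm⟩ := hx1
  have hinjF : Function.Injective (algebraMap A F) := by
    rw [IsScalarTower.algebraMap_eq A L F]
    exact (algebraMap L F).injective.comp (IsFractionRing.injective A L)
  have hϖF : algebraMap A F ϖ ≠ 0 := fun h0 => hϖ.ne_zero (hinjF (by rw [h0, map_zero]))
  -- (KRULL)
  obtain ⟨s, hs, hsm⟩ := ssk_krull hϖ t ht 𝔫 h𝔫 m hm (by
    intro V hV hPV hcentre
    obtain ⟨R, hR⟩ := s18r_exists_place t ht V hV
    have hcen : SsCentredAt t 𝔫 R := by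
      refine ⟨?_, ?_⟩
      · rw [hR]; exact hPV
      · rw [hR]; exact hcentre
    have h1 := hord R hcen
    have hx0 : h / r ^ n ≠ 0 := div_ne_zero hh0 (pow_ne_zero _ hr0)
    have h2 : R.ord (h / r ^ n) = 0 := by
      rw [div_eq_mul_inv, R.ord_mul hh0 (inv_ne_zero (pow_ne_zero _ hr0)), R.ord_inv,
        ← zpow_natCast, R.ord_zpow, h1]
      ring
    have h3 : h / r ^ n ∈ R.toValuationSubring :=
      (PlaceOrd.mem_iff_ord_nonneg R hx0).mpr (by rw [h2])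
    have h4 : (algebraMap A F ϖ)⁻¹ ∈ R.toValuationSubring := by
      have : (algebraMap A F ϖ)⁻¹ = algebraMap L F (algebraMap A L ϖ)⁻¹ := by
        rw [map_inv₀, ← IsScalarTower.algebraMap_apply A L F]
      rw [this]
      exact R.algebraMap_mem' _
    have h5 : m = (h / r ^ n - 1) * (algebraMap A F ϖ)⁻¹ := by
      rw [hxm, mul_comm (algebraMap A F ϖ) m, mul_assoc, mul_inv_cancel₀ hϖF, mul_one]
    rw [← hR, h5]
    exact R.toValuationSubring.mul_mem _ _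
      (sub_mem h3 R.toValuationSubring.one_mem) h4)
  refine ⟨r, hr0, hr1, hr2, s, hs, (s : F) * m, hsm, ?_⟩
  rw [hxm]; ring

/-! ### (NF-core) -/

/-- (NF-core) (K2) + local trivialisations of the divisor at all `𝔫 ∋ ϖ` of both charts
⟹ `g^{(σ-1)(τ-1)}` is an `n`-th power. -/
theorem ssnf_core (F' : Type u) [Field F'] [Algebra F F'] [Algebra A F'] [Algebra L F']
    [IsScalarTower A F F'] [IsScalarTower L F F'] [IsScalarTower A L F']
    (hϖ : Irreducible ϖ) (t : F) (ht : Transcendental L t) [FiniteDimensional L⟮t⟯ F]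
    (n : ℕ) (hn : IsUnit (n : A)) (ζ : A) (hζ : IsPrimitiveRoot ζ n)
    (σ τ : SemilinearAut L F)
    (hK2 : ∀ f : F, f ≠ 0 → S18DvdGauss hϖ t (ssnfDD σ τ f - 1))
    (g : F) (hg : g ≠ 0)
    (h0 : ∀ 𝔫 : Ideal ↥(s18tInt A t), 𝔫.IsMaximal → sskPi ϖ t ∈ 𝔫 →
      ∃ f : F, f ≠ 0 ∧ ∀ R : Place L F, SsCentredAt t 𝔫 R →
        R.ord (ssnfDD σ τ g) = n * R.ord (ssnfDD σ τ f))
    (hinf : ∀ 𝔫 : Ideal ↥(s18tInt A t⁻¹), 𝔫.IsMaximal → sskPi ϖ t⁻¹ ∈ 𝔫 →
      ∃ f : F, f ≠ 0 ∧ ∀ R : Place L F, SsCentredAt t⁻¹ 𝔫 R →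
        R.ord (ssnfDD σ τ g) = n * R.ord (ssnfDD σ τ f))
    (y : F') (hy : y ^ n = algebraMap F F' (ssnfDD σ τ g))
    (hgen : IntermediateField.adjoin F {y} = ⊤)
    (hL : ∀ x : F', IsAlgebraic L x → x ∈ (algebraMap L F').range) :
    ∃ y₀ : F, y₀ ^ n = ssnfDD σ τ g := by
  have ht' : Transcendental L t⁻¹ := by
    intro h
    exact ht (by simpa using h.inv)
  have hfd : FiniteDimensional L⟮t⁻¹⟯ F := by
    have hEq : L⟮t⁻¹⟯ = L⟮t⟯ := by
      apply le_antisymm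
      · rw [IntermediateField.adjoin_simple_le_iff]
        exact inv_mem (IntermediateField.mem_adjoin_simple_self L t)
      · rw [IntermediateField.adjoin_simple_le_iff]
        have := inv_mem (IntermediateField.mem_adjoin_simple_self L t⁻¹)
        simpa using this
    rw [hEq]; infer_instance
  have hK2' : ∀ f : F, f ≠ 0 → S18DvdGauss hϖ t⁻¹ (ssnfDD σ τ f - 1) := fun f hf =>
    (s18t_dvdGauss_inv (L := L) hϖ t ht _).mpr (hK2 f hf)
  exact ssk_kummer F' hϖ t ht n hn ζ hζ (ssnfDD σ τ g) (ssnfDD_ne_zero σ τ hg) (hK2 g hg) y hy hgen hL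
    (fun 𝔫 h𝔫 hϖ𝔫 => ssnf_kumAt hϖ t ht n σ τ hK2 g hg 𝔫 h𝔫 (h0 𝔫 h𝔫 hϖ𝔫))
    (fun 𝔫 h𝔫 hϖ𝔫 => ssnf_kumAt hϖ t⁻¹ ht' n σ τ hK2' g hg 𝔫 h𝔫 (hinf 𝔫 h𝔫 hϖ𝔫))

end Fermat.Agent.SS
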