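import Mathlib
import Fermat.Prelude.Def_AlgebraicCurve_BaseChangeGalois
import Fermat.Agent.S18.T.Spec
import Fermat.Agent.S24.PlaceOrd
import Fermat.Agent.SS.NF.Defs

/-!
# Program S, route K : (NF-loc)

From the local structure `SsLocAt` at a maximal ideal `𝔫 ∋ ϖ` of the chart ring to the local
trivialisation of the divisor of `g^{(σ-1)(τ-1)}` : if `div g` is divisible by `n` and supported on
rational places, there is `f` with `ord_R (g^{(σ-1)(τ-1)}) = n · ord_R (f^{(σ-1)(τ-1)})` for all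
places `R` centred at `𝔫`.
-/

set_option autoImplicit false
set_option linter.unusedSectionVars false
set_option linter.unusedVariables false

noncomputable section

namespace Fermat.Agent.SS

open Polynomial IntermediateField AlgebraicCurve Fermat.Agent.S18 Fermat.Agent.S24

universe u

variable {A : Type*} [CommRing A] [IsDomain A] [IsDiscreteValuationRing A] [CharZero A]
variable {L : Type*} [Field L] [Algebra A L] [IsFractionRing A L]
variable {F : Type u} [Field F] [Algebra A F] [Algebra L F] [IsScalarTower A L F]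
variable {ϖ : A}

/-! ### orders and the semilinear action -/

/-- `ord_R (γ f) = ord_{γ⁻¹ R} f`. -/
theorem ssnf_ord_smul (γ : SemilinearAut L F) (R : Place L F) (f : F) :
    R.ord (γ • f) = (γ⁻¹ • R).ord f := by
  have h := SemilinearAut.ord_smul γ (γ⁻¹ • R) f
  rwa [smul_inv_smul] at h

/-- the order of a double difference -/
theorem ssnf_ord_DD (σ τ : SemilinearAut L F) (R : Place L F) {f : F} (hf : f ≠ 0) :
    R.ord (ssnfDD σ τ f) =
      (τ⁻¹ • σ⁻¹ • R).ord f + R.ord f - (σ⁻¹ • R).ord f - (τ⁻¹ • R).ord f := by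
  have h1 : σ • (τ • f) ≠ 0 := (smul_ne_zero_iff_ne σ).mpr ((smul_ne_zero_iff_ne τ).mpr hf)
  have h2 : σ • f ≠ 0 := (smul_ne_zero_iff_ne σ).mpr hf
  have h3 : τ • f ≠ 0 := (smul_ne_zero_iff_ne τ).mpr hf
  unfold ssnfDD
  rw [div_eq_mul_inv, R.ord_mul (mul_ne_zero h1 hf) (inv_ne_zero (mul_ne_zero h2 h3)),
    R.ord_mul h1 hf, R.ord_inv, R.ord_mul h2 h3, ssnf_ord_smul σ R (τ • f),
    ssnf_ord_smul τ (σ⁻¹ • R) f, ssnf_ord_smul σ R f, ssnf_ord_smul τ R f]
  ring

/-- the order of a finite product -/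
theorem ssnf_ord_prod (R : Place L F) {ι : Type*} (S : Finset ι) (a : ι → F)
    (ha : ∀ i ∈ S, a i ≠ 0) : R.ord (∏ i ∈ S, a i) = ∑ i ∈ S, R.ord (a i) := by
  classical
  induction S using Finset.induction_on with
  | empty => simp [Place.ord_one]
  | insert i S hi ih =>
    rw [Finset.prod_insert hi, Finset.sum_insert hi,
      R.ord_mul (ha i (Finset.mem_insert_self i S))
        (Finset.prod_ne_zero_iff.mpr fun j hj => ha j (Finset.mem_insert_of_mem hj)),
      ih fun j hj => ha j (Finset.mem_insert_of_mem hj)]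

/-! ### "centred at `𝔫`" is stable under inertial automorphisms -/

theorem ssnf_centred_smul (t : F) (γ : SemilinearAut L F)
    (hγ : SsInertial ϖ t γ⁻¹)
    (𝔫 : Ideal ↥(s18tInt A t)) (hϖ𝔫 : sskPi ϖ t ∈ 𝔫)
    (R : Place L F) (hR : SsCentredAt t 𝔫 R) : SsCentredAt t 𝔫 (γ • R) := by
  obtain ⟨hP, hcen⟩ := hR
  have hmem : ∀ x : F, x ∈ (γ • R).toValuationSubring ↔ γ⁻¹ • x ∈ R.toValuationSubring := by
    intro x
    rw [SemilinearAut.smul_toValuationSubring]
    exact ValuationSubring.mem_pointwise_smul_iff_inv_smul_mem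
  have hinvP : ∀ x ∈ s18tInt A t, γ⁻¹ • x ∈ s18tInt A t := by
    intro x hx
    obtain ⟨p, hp, hxp⟩ := hγ x hx
    have : γ⁻¹ • x = x + algebraMap A F ϖ * p := by rw [← hxp]; ring
    rw [this]
    exact Subring.add_mem _ hx (Subring.mul_mem _ (s18tc_algebraMap_mem_int t ϖ) hp)
  refine ⟨?_, ?_⟩
  · intro x hx
    show x ∈ (γ • R).toValuationSubring
    rw [hmem]
    exact hP (hinvP x hx)
  · intro p hp
    have hp' : (p : F) ∈ (γ • R).toValuationSubring.nonunits := hp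
    -- `γ⁻¹ p` lies in the centre of `R`
    have h1 : γ⁻¹ • (p : F) ∈ R.toValuationSubring.nonunits := by
      rw [ValuationSubring.mem_nonunits_iff_or] at hp' ⊢
      rcases hp' with h0 | hinv
      · left; rw [h0, smul_zero]
      · right
        intro hmem'
        apply hinv
        rw [hmem, smul_inv'']
        exact hmem'
    have h2 : (⟨γ⁻¹ • (p : F), hinvP _ p.2⟩ : ↥(s18tInt A t)) ∈ 𝔫 := hcen h1
    obtain ⟨p', hp'mem, hpp'⟩ := hγ (p : F) p.2
    have h3 : p = (⟨γ⁻¹ • (p : F), hinvP _ p.2⟩ : ↥(s18tInt A t)) -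
        sskPi ϖ t * ⟨p', hp'mem⟩ := by
      apply Subtype.ext
      show (p : F) = γ⁻¹ • (p : F) - algebraMap A F ϖ * p'
      rw [← hpp']; ring
    show p ∈ 𝔫
    rw [h3]
    exact 𝔫.sub_mem h2 (𝔫.mul_mem_right _ hϖ𝔫)

/-! ### (NF-loc) -/

/-- the existence of a local function at `R` -/
def SsHasLoc (t : F) (𝔫 : Ideal ↥(s18tInt A t)) (R : Place L F) : Prop :=
  ∃ f : F, f ≠ 0 ∧ R.ord f = 1 ∧
    ∀ R' : Place L F, SsCentredAt t 𝔫 R' → R' ≠ R → R'.ord f = 0

open Classical in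
/-- a choice of local functions -/
def ssLocFun (t : F) (𝔫 : Ideal ↥(s18tInt A t)) (R : Place L F) : F :=
  if h : SsHasLoc t 𝔫 R then h.choose else 1

theorem ssLocFun_ne_zero (t : F) (𝔫 : Ideal ↥(s18tInt A t)) (R : Place L F) :
    ssLocFun t 𝔫 R ≠ 0 := by
  unfold ssLocFun
  split_ifs with h
  · exact h.choose_spec.1
  · exact one_ne_zero

open Classical in
theorem ssLocFun_ord (t : F) (𝔫 : Ideal ↥(s18tInt A t)) (R : Place L F) (h : SsHasLoc t 𝔫 R)
    (R' : Place L F) (hR' : SsCentredAt t 𝔫 R') :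
    R'.ord (ssLocFun t 𝔫 R) = if R' = R then 1 else 0 := by
  unfold ssLocFun
  rw [dif_pos h]
  split_ifs with hRR
  · rw [hRR]; exact h.choose_spec.2.1
  · exact h.choose_spec.2.2 R' hR' hRR

/-- (NF-loc) from the local structure to the local trivialisation of the divisor. -/
theorem ssnf_loc (t : F) (G : Subgroup (SemilinearAut L F)) (hG : ∀ γ ∈ G, SsInertial ϖ t γ)
    (σ τ : SemilinearAut L F) (hσ : σ ∈ G) (hτ : τ ∈ G)
    (𝔫 : Ideal ↥(s18tInt A t)) (h𝔫 : 𝔫.IsMaximal) (hϖ𝔫 : sskPi ϖ t ∈ 𝔫)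
    (hloc : SsLocAt t σ τ 𝔫)
    (n : ℕ) (hn : n ≠ 0) (g : F) (hg : g ≠ 0)
    (hg1 : ∀ R : Place L F, (n : ℤ) ∣ R.ord g)
    (hg2 : ∀ R : Place L F, R.ord g ≠ 0 → SsRational R)
    (hg3 : {R : Place L F | R.ord g ≠ 0}.Finite) :
    ∃ f : F, f ≠ 0 ∧ ∀ R : Place L F, SsCentredAt t 𝔫 R →
      R.ord (ssnfDD σ τ g) = n * R.ord (ssnfDD σ τ f) := by
  classical
  -- the finite set of shallow places of the support centred at `𝔫`
  set S : Finset (Place L F) :=
    hg3.toFinset.filter (fun R' => SsCentredAt t 𝔫 R' ∧ SsHasLoc t 𝔫 R') with hS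
  set φ : Place L F → F := fun R' => ssLocFun t 𝔫 R' ^ (R'.ord g / (n : ℤ)) with hφ
  have hφ0 : ∀ R' : Place L F, φ R' ≠ 0 := fun R' => zpow_ne_zero _ (ssLocFun_ne_zero t 𝔫 R')
  set f : F := ∏ R' ∈ S, φ R' with hf
  have hf0 : f ≠ 0 := Finset.prod_ne_zero_iff.mpr fun R' _ => hφ0 R'
  have hnz : (n : ℤ) ≠ 0 := by exact_mod_cast hn
  -- (★) the order of `f` at a place centred at `𝔫`
  have hstar : ∀ R'' : Place L F, SsCentredAt t 𝔫 R'' →
      (n : ℤ) * R''.ord f = if R'' ∈ S then R''.ord g else 0 := by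
    intro R'' hR''
    rw [hf, ssnf_ord_prod R'' S φ (fun R' _ => hφ0 R')]
    have hterm : ∀ R' ∈ S, R''.ord (φ R') = if R' = R'' then R''.ord g / (n : ℤ) else 0 := by
      intro R' hR'
      have hR'S := (Finset.mem_filter.mp hR').2
      rw [hφ]
      simp only
      rw [R''.ord_zpow, ssLocFun_ord t 𝔫 R' hR'S.2 R'' hR'']
      by_cases hEq : R' = R''
      · subst hEq
        rw [if_pos rfl, if_pos rfl, mul_one]
      · have hEq' : ¬ R'' = R' := fun h => hEq h.symm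
        rw [if_neg hEq', if_neg hEq, mul_zero]
    rw [Finset.sum_congr rfl hterm, Finset.sum_ite_eq' S R'']
    split_ifs with hmem
    · exact Int.mul_ediv_cancel' (hg1 R'')
    · rw [mul_zero]
  refine ⟨f, hf0, ?_⟩
  intro R hR
  -- the four places
  have hGinv : ∀ γ ∈ G, SsInertial ϖ t (γ⁻¹)⁻¹ := fun γ hγ => by
    rw [inv_inv]; exact hG γ hγ
  have hR1 : SsCentredAt t 𝔫 (σ⁻¹ • R) := ssnf_centred_smul t σ⁻¹ (hGinv σ hσ) 𝔫 hϖ𝔫 R hR
  have hR2 : SsCentredAt t 𝔫 (τ⁻¹ • R) := ssnf_centred_smul t τ⁻¹ (hGinv τ hτ) 𝔫 hϖ𝔫 R hR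
  have hR12 : SsCentredAt t 𝔫 (τ⁻¹ • σ⁻¹ • R) :=
    ssnf_centred_smul t τ⁻¹ (hGinv τ hτ) 𝔫 hϖ𝔫 _ hR1
  rw [ssnf_ord_DD σ τ R hg, ssnf_ord_DD σ τ R hf0]
  -- a place of the four which is in the support but has no local function is fixed
  by_cases hbad : ∃ R'' : Place L F, (R'' = R ∨ R'' = σ⁻¹ • R ∨ R'' = τ⁻¹ • R ∨
      R'' = τ⁻¹ • σ⁻¹ • R) ∧ R''.ord g ≠ 0 ∧ ¬ SsHasLoc t 𝔫 R''
  · obtain ⟨R'', hR''X, hR''g, hR''loc⟩ := hbad
    have hR''cen : SsCentredAt t 𝔫 R'' := by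
      rcases hR''X with h | h | h | h <;> rw [h] <;> assumption
    rcases hloc R'' (hg2 R'' hR''g) hR''cen with hl | ⟨hfixσ, hfixτ⟩
    · exact absurd hl hR''loc
    · have hfixσ' : σ⁻¹ • R'' = R'' := by
        rw [inv_smul_eq_iff, hfixσ]
      have hfixτ' : τ⁻¹ • R'' = R'' := by
        rw [inv_smul_eq_iff, hfixτ]
      have hRR'' : R = R'' := by
        rcases hR''X with h | h | h | h
        · exact h.symm
        · rw [h, smul_inv_smul] at hfixσ; exact hfixσ.symm ▸ (by rw [h])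
        · rw [h, smul_inv_smul] at hfixτ; exact hfixτ.symm ▸ (by rw [h])
        · have h1 : τ • R'' = σ⁻¹ • R := by rw [h, smul_inv_smul]
          rw [hfixτ] at h1
          have h2 : σ • R'' = R := by rw [h1, smul_inv_smul]
          rw [hfixσ] at h2
          exact h2.symm
      rw [hRR'', hfixσ', hfixτ']
      ring
  · push Not at hbad
    have hgood : ∀ R'' : Place L F, (R'' = R ∨ R'' = σ⁻¹ • R ∨ R'' = τ⁻¹ • R ∨
        R'' = τ⁻¹ • σ⁻¹ • R) → SsCentredAt t 𝔫 R'' → R''.ord g = (n : ℤ) * R''.ord f := by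
      intro R'' hX hcen
      rw [hstar R'' hcen]
      by_cases h0 : R''.ord g = 0
      · rw [h0]
        split_ifs <;> rfl
      · have hl := hbad R'' hX h0
        have hmem : R'' ∈ S := by
          rw [hS, Finset.mem_filter, Set.Finite.mem_toFinset]
          exact ⟨h0, hcen, hl⟩
        rw [if_pos hmem]
    rw [hgood R (Or.inl rfl) hR, hgood _ (Or.inr (Or.inl rfl)) hR1,
      hgood _ (Or.inr (Or.inr (Or.inl rfl))) hR2, hgood _ (Or.inr (Or.inr (Or.inr rfl))) hR12]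
    ring

end Fermat.Agent.SS
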