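import Mathlib
import Fermat.Prelude.Def_AlgebraicCurve_BaseChangeGalois
import Fermat.Agent.S18.T.Spec
import Fermat.Agent.S18.RH.W
import Fermat.Agent.SS.K.Spec
import Fermat.Agent.SS.NF.Defs
import Fermat.Agent.SS.NF.Core
import Fermat.Agent.SS.NF.Loc
import Fermat.Agent.SS.Loc.GermNF

/-!
# Program S (S34), ROUTE K : THE ABSTRACT NUMBER-FIELD THEOREM (HUB; `ssnf_core`, `ssnf_loc` PROVED in `Core.lean`, `Loc.lean`; `ssnf_locAt_of_germ` PROVED in `SS/Loc/GermNF.lean`; nothing left to prove here)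

Setting of S18 package T : `A` a DVR of characteristic `0`, uniformiser `ϖ`, `L = Frac A`,
`F / L(t)` finite, `P = s18tInt A t`, `Q = s18tInt A t⁻¹`, `P_(ϖ) = s18tIntLoc A t (C ϖ)`.
`G` a group of `L`-semilinear automorphisms of `F` (Prelude `SemilinearAut L F`, acting on the
Prelude places `Place L F`), "inertial" : `γ x ≡ x mod ϖ P` on `P` and on `Q`.

* `ssnfDD σ τ f = f^{(σ-1)(τ-1)}`.
* `SsLocAt t σ τ 𝔫` : the local structure at a maximal ideal `𝔫 ∋ ϖ` of `P`, in the only form the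
  global argument uses : every `L`-rational place `R` centred at `𝔫` either has a function with
  divisor `[R]` among the places centred at `𝔫`, or is fixed by `σ` and `τ`.
* `ssnf_loc`  (NF-loc)  : `SsLocAt` + "`div g` is divisible by `n` and supported on rational
  places" ⟹ `∃ f`, `div (g^{(σ-1)(τ-1)}) = n div (f^{(σ-1)(τ-1)})` on the places centred at `𝔫`.
* `ssnf_core` (NF-core) : (K2) + the conclusion of NF-loc at every `𝔫` of both charts ⟹
  `g^{(σ-1)(τ-1)}` is an `n`-th power (KRULL + KUM).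
* `ss_numberfield` (NF) = NF-core + NF-loc : THE BLACK BOX consumed by (TOP).
* `SsGermSmooth`, `SsGermCross`, `ssnf_locAt_of_germ` (LOC + DEEP, abstract node algebra) :
  `𝔫 P_𝔫 = (ϖ, z)` resp. `(ϖ, u_m, w_m)` with `u_m w_m = κ_m - ϖ^m ρ_m`, all `G`-invariant,
  ⟹ `SsLocAt`.

The CONCRETE side (level `N = qM`, `F = F_E(N)`, `G` = image of inertia) has to provide exactly:
`SsInertial` on both charts, (K2), and a germ at every `𝔫 ∋ ϖ` with residue field `A/ϖ`.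
-/

set_option autoImplicit false
set_option linter.unusedSectionVars false
set_option linter.unusedVariables false

noncomputable section

namespace Fermat.Agent.SS

open Polynomial IntermediateField AlgebraicCurve Fermat.Agent.S18

universe u

variable {A : Type*} [CommRing A] [IsDomain A] [IsDiscreteValuationRing A] [CharZero A]
variable {L : Type*} [Field L] [Algebra A L] [IsFractionRing A L]
variable {F : Type u} [Field F] [Algebra A F] [Algebra L F] [IsScalarTower A L F]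
variable {ϖ : A}

/-! ### (NF) -/

/-- (NF) THE ABSTRACT NUMBER-FIELD THEOREM of Program S. -/
theorem ss_numberfield (F' : Type u) [Field F'] [Algebra F F'] [Algebra A F'] [Algebra L F']
    [IsScalarTower A F F'] [IsScalarTower L F F'] [IsScalarTower A L F']
    (hϖ : Irreducible ϖ) (t : F) (ht : Transcendental L t) [FiniteDimensional L⟮t⟯ F]
    (n : ℕ) (hn : IsUnit (n : A)) (ζ : A) (hζ : IsPrimitiveRoot ζ n)
    (G : Subgroup (SemilinearAut L F))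
    (hG0 : ∀ γ ∈ G, SsInertial ϖ t γ) (hGinf : ∀ γ ∈ G, SsInertial ϖ t⁻¹ γ)
    (σ τ : SemilinearAut L F) (hσ : σ ∈ G) (hτ : τ ∈ G)
    (hK2 : ∀ f : F, f ≠ 0 → S18DvdGauss hϖ t (ssnfDD σ τ f - 1))
    (hloc0 : ∀ 𝔫 : Ideal ↥(s18tInt A t), 𝔫.IsMaximal → sskPi ϖ t ∈ 𝔫 → SsLocAt t σ τ 𝔫)
    (hlocinf : ∀ 𝔫 : Ideal ↥(s18tInt A t⁻¹), 𝔫.IsMaximal → sskPi ϖ t⁻¹ ∈ 𝔫 →
      SsLocAt t⁻¹ σ τ 𝔫)
    (g : F) (hg : g ≠ 0)
    (hg1 : ∀ R : Place L F, (n : ℤ) ∣ R.ord g)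
    (hg2 : ∀ R : Place L F, R.ord g ≠ 0 → SsRational R)
    (hg3 : {R : Place L F | R.ord g ≠ 0}.Finite)
    (y : F') (hy : y ^ n = algebraMap F F' (ssnfDD σ τ g))
    (hgen : IntermediateField.adjoin F {y} = ⊤)
    (hL : ∀ x : F', IsAlgebraic L x → x ∈ (algebraMap L F').range) :
    ∃ y₀ : F, y₀ ^ n = ssnfDD σ τ g := by
  have hn0 : n ≠ 0 := by
    rintro rfl
    rw [Nat.cast_zero] at hn
    exact not_isUnit_zero hn
  exact ssnf_core F' hϖ t ht n hn ζ hζ σ τ hK2 g hg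
    (fun 𝔫 h𝔫 hϖ𝔫 => ssnf_loc t G hG0 σ τ hσ hτ 𝔫 h𝔫 hϖ𝔫 (hloc0 𝔫 h𝔫 hϖ𝔫) n hn0 g hg hg1 hg2 hg3)
    (fun 𝔫 h𝔫 hϖ𝔫 => ssnf_loc t⁻¹ G hGinf σ τ hσ hτ 𝔫 h𝔫 hϖ𝔫 (hlocinf 𝔫 h𝔫 hϖ𝔫) n hn0 g hg
      hg1 hg2 hg3)
    y hy hgen hL

/-! ### (LOC) + (DEEP) : germs ⟹ `SsLocAt` : `ssnf_locAt_of_germ`, PROVED in `SS/Loc/GermNF.lean` -/

end Fermat.Agent.SS
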